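import Fermat.Agent.LocalDegrees.Galois

/-!
# The height bound at a tamely ramified prime

If `σ` moves every integer of a Galois number field of exponent `N` by an element nilpotent modulo a
prime `p > N` then an element moved by `σ` has height at least `(log p / N - log 2) / 2`.
-/

set_option autoImplicit false

noncomputable section

namespace FA.AbelianNorthcott

open NumberField FA.LocalDegrees

variable {K : Type*} [Field K] [NumberField K] {p N : ℕ}

/-- Nilpotent elements modulo `p` are small at every place above `p`. -/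
theorem place_pow_le (hp : p.Prime) {q : ℕ} (hb : BoundedAt K p q N) (v : FinitePlace K)
    {w t : 𝓞 K} {n : ℕ} (ht : w ^ n = (p : 𝓞 K) * t) : v (w : K) ^ N ≤ v (p : K) := by
  have hpc : ((p : 𝓞 K) : K) = (p : K) := map_natCast (algebraMap (𝓞 K) K) p
  rcases (place_int_le_one v (p : 𝓞 K)).lt_or_eq with hv | hv
  swap
  · rw [hpc] at hv
    rw [hv]
    exact pow_le_one₀ (apply_nonneg v _) (place_int_le_one v w)
  have hpP : (p : 𝓞 K) ∈ v.maximalIdeal.asIdeal := mem_of_place_lt_one v hv
  have hwP : w ∈ v.maximalIdeal.asIdeal :=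
    v.maximalIdeal.isPrime.mem_of_pow_mem n (ht ▸ Ideal.mul_mem_right t _ hpP)
  have h := place_le_pow hp v (hb _ v.maximalIdeal.isPrime hpP).2 (m := 1)
    (w := w ^ N) (by rw [one_mul]; exact Ideal.pow_mem_pow hwP N)
  rw [pow_one, show ((w ^ N : 𝓞 K) : K) = (w : K) ^ N from map_pow (algebraMap (𝓞 K) K) w N, map_pow] at h
  exact h

variable (σ : K ≃ₐ[ℚ] K)

/-- The local estimate. -/
theorem place_sub_le (hp : p.Prime) (hN : 0 < N)
    (hdiv : ∀ (v : FinitePlace K) (z : 𝓞 K), v (σ (z : K) - z) ^ N ≤ v (p : K)) (v : FinitePlace K)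
    (x : K) :
    v (σ x - x) ^ N ≤ v (p : K) * (max (v x) 1 * max (v (σ x)) 1) ^ N := by
  have hM1 : 1 ≤ max (v x) 1 := le_max_right _ _
  have hM2 : 1 ≤ max (v (σ x)) 1 := le_max_right _ _
  have hpc : ((p : 𝓞 K) : K) = (p : K) := map_natCast (algebraMap (𝓞 K) K) p
  rcases (place_int_le_one v (p : 𝓞 K)).lt_or_eq with hv | hv
  swap
  · rw [hpc] at hv
    rw [hv, one_mul]
    refine pow_le_pow_left₀ (apply_nonneg v _) ?_ N
    rw [sub_eq_add_neg]
    refine (FinitePlace.add_le v _ _).trans (max_le ?_ ?_)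
    · exact (le_max_left _ _).trans (le_mul_of_one_le_left (by positivity) hM1)
    · rw [FinitePlace.coe_apply, AbsoluteValue.map_neg, ← FinitePlace.coe_apply]
      exact (le_max_left _ _).trans (le_mul_of_one_le_right (by positivity) hM2)
  rw [hpc] at hv
  have key : ∀ y : K, v y ≤ 1 → v (σ y - y) ^ N ≤ v (p : K) := by
    intro y hy
    obtain ⟨n, d, hd, hyd⟩ := (show ∃ n d : 𝓞 K, v (d : K) = 1 ∧ y * (d : K) = (n : K) by
      obtain ⟨n, ⟨d, hd⟩, h | h⟩ := v.maximalIdeal.exists_primeCompl_mul_eq_or_mul_eq (K := K) y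
      · exact ⟨n, d, place_eq_one v hd, h⟩
      · refine ⟨d, n, le_antisymm (place_int_le_one v n) ?_, h⟩
        rw [← place_eq_one v hd, show (d : K) = y * (n : K) from h.symm, map_mul]
        exact mul_le_of_le_one_left (apply_nonneg v _) hy)
    have hsmall : v (σ (d : K) - d) < 1 := by
      by_contra hge
      exact absurd ((hdiv v d).trans_lt hv) (not_lt.2 (one_le_pow₀ (not_lt.1 hge)))
    have hd' : v (σ (d : K)) = 1 := by
      refine le_antisymm (place_int_le_one v
        (⟨σ (d : K), d.isIntegral_coe.map (σ.toAlgHom.restrictScalars ℤ)⟩ : 𝓞 K))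
        (not_lt.1 fun hlt => ?_)
      have h := FinitePlace.add_le v (σ (d : K)) (-(σ (d : K) - d))
      rw [show σ (d : K) + -(σ (d : K) - d) = (d : K) by ring, hd, FinitePlace.coe_apply v (-_),
        AbsoluteValue.map_neg, ← FinitePlace.coe_apply] at h
      exact absurd h (not_le.2 (max_lt hlt hsmall))
    have hσ : σ (n : K) = σ y * σ (d : K) := by rw [← map_mul, hyd]
    have hle : v ((σ y - y) * (σ (d : K) * (d : K))) ≤
        max (v (σ (n : K) - n)) (v (σ (d : K) - d)) := by
      rw [show (σ y - y) * (σ (d : K) * (d : K)) = (σ (n : K) - (n : K)) * (d : K) +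
          -((n : K) * (σ (d : K) - d)) by rw [hσ, ← hyd]; ring]
      refine (FinitePlace.add_le v _ _).trans (max_le_max ?_ ?_)
      · rw [map_mul, hd, mul_one]
      · rw [FinitePlace.coe_apply, AbsoluteValue.map_neg, ← FinitePlace.coe_apply, map_mul]
        exact mul_le_of_le_one_left (apply_nonneg v _) (place_int_le_one v n)
    rw [map_mul, map_mul, hd, hd', mul_one, mul_one] at hle
    rcases le_max_iff.1 hle with h | h <;>
      exact (pow_le_pow_left₀ (apply_nonneg v _) h N).trans (hdiv v _)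
  rcases le_or_gt (v x) 1 with hx | hx
  · exact (key x hx).trans (le_mul_of_one_le_right (apply_nonneg v _)
      (one_le_pow₀ (one_le_mul_of_one_le_of_one_le hM1 hM2)))
  · have hx0 : x ≠ 0 := by rintro rfl; rw [map_zero] at hx; exact absurd hx (by norm_num)
    have hσ0 : σ x ≠ 0 := by simpa using hx0
    have h := key x⁻¹ (by rw [map_inv₀]; exact inv_le_one_of_one_le₀ hx.le)
    have e : σ x - x = -((σ x⁻¹ - x⁻¹) * (x * σ x)) := by
      rw [map_inv₀ σ]
      field_simp
      ring
    rw [e, FinitePlace.coe_apply, AbsoluteValue.map_neg, ← FinitePlace.coe_apply, map_mul, map_mul,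
      mul_pow]
    exact mul_le_mul h (pow_le_pow_left₀ (mul_nonneg (apply_nonneg v _) (apply_nonneg v _))
      (mul_le_mul (le_max_left _ _) (le_max_left _ _) (apply_nonneg v _)
        (le_trans zero_le_one hM1)) N)
      (pow_nonneg (mul_nonneg (apply_nonneg v _) (apply_nonneg v _)) _) (apply_nonneg v _)

/-- **The height inequality.** -/
theorem pow_le_mulHeight_ramified (hp : p.Prime) (hN : 0 < N)
    (hdiv : ∀ (v : FinitePlace K) (z : 𝓞 K), v (σ (z : K) - z) ^ N ≤ v (p : K)) {x : K}
    (hne : σ x ≠ x) :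
    (p : ℝ) ^ Module.finrank ℚ K ≤ (2 ^ Module.finrank ℚ K *
      (Height.mulHeight₁ x * Height.mulHeight₁ (σ x))) ^ N := by
  classical
  set D := Module.finrank ℚ K
  have hδ : σ x - x ≠ 0 := sub_ne_zero.2 hne
  have hp0 : (p : K) ≠ 0 := Nat.cast_ne_zero.2 hp.ne_zero
  have hfin : ∀ y : K, (Function.mulSupport fun v : FinitePlace K => max (v y) 1).Finite := by
    intro y
    rcases eq_or_ne y 0 with rfl | hy
    · simp
    · refine (FinitePlace.hasFiniteMulSupport hy).subset fun v hv h1 => ?_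
      exact hv (by simp [show v y = 1 from h1])
  obtain ⟨T, hT1, hT2, hT3, hT4⟩ : ∃ T : Finset (FinitePlace K),
      (Function.mulSupport fun v : FinitePlace K => v (σ x - x)) ⊆ T ∧
      (Function.mulSupport fun v : FinitePlace K => v (p : K)) ⊆ T ∧
      (Function.mulSupport fun v : FinitePlace K => max (v x) 1) ⊆ T ∧
      (Function.mulSupport fun v : FinitePlace K => max (v (σ x)) 1) ⊆ T := by
    refine ⟨((FinitePlace.hasFiniteMulSupport hδ).union
      ((FinitePlace.hasFiniteMulSupport hp0).union ((hfin x).union (hfin (σ x))))).toFinset,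
      ?_, ?_, ?_, ?_⟩ <;> rw [Set.Finite.coe_toFinset] <;> intro v hv
    exacts [Or.inl hv, Or.inr (Or.inl hv), Or.inr (Or.inr (Or.inl hv)),
      Or.inr (Or.inr (Or.inr hv))]
  have hpr := prod_abs_eq_one hδ
  have hpr2 := prod_abs_eq_one hp0
  rw [finprod_eq_prod_of_mulSupport_subset _ hT1] at hpr
  rw [finprod_eq_prod_of_mulSupport_subset _ hT2] at hpr2
  rw [mulHeight₁_eq, mulHeight₁_eq, finprod_eq_prod_of_mulSupport_subset _ hT3,
    finprod_eq_prod_of_mulSupport_subset _ hT4]
  have hD : ∑ w : InfinitePlace K, w.mult = D := InfinitePlace.sum_mult_eq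
  have hinfp : ∏ w : InfinitePlace K, w (p : K) ^ w.mult = (p : ℝ) ^ D := by
    rw [← hD, ← Finset.prod_pow_eq_pow_sum]
    exact Finset.prod_congr rfl fun w _ => by
      rw [← InfinitePlace.norm_embedding_eq, map_natCast, Complex.norm_natCast]
  rw [hinfp] at hpr2
  have hi : ∏ w : InfinitePlace K, w (σ x - x) ^ w.mult ≤
      2 ^ D * ((∏ w : InfinitePlace K, max (w x) 1 ^ w.mult) *
        ∏ w : InfinitePlace K, max (w (σ x)) 1 ^ w.mult) := by
    rw [← hD, ← Finset.prod_pow_eq_pow_sum, ← Finset.prod_mul_distrib, ← Finset.prod_mul_distrib]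
    refine Finset.prod_le_prod (fun w _ => pow_nonneg (apply_nonneg w _) _) fun w _ => ?_
    rw [← mul_pow, ← mul_pow]
    refine pow_le_pow_left₀ (apply_nonneg w _) ?_ _
    have hM : 1 ≤ max (w x) 1 := le_max_right _ _
    have hN : 1 ≤ max (w (σ x)) 1 := le_max_right _ _
    rw [← InfinitePlace.norm_embedding_eq, map_sub, two_mul]
    refine (norm_sub_le _ _).trans (add_le_add ?_ ?_) <;> rw [InfinitePlace.norm_embedding_eq]
    · exact (le_max_left _ _).trans (le_mul_of_one_le_left (by positivity) hM)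
    · exact (le_max_left _ _).trans (le_mul_of_one_le_right (by positivity) hN)
  have hf : (∏ v ∈ T, v (σ x - x)) ^ N ≤ (∏ v ∈ T, v (p : K)) *
      ((∏ v ∈ T, max (v x) 1) * ∏ v ∈ T, max (v (σ x)) 1) ^ N := by
    rw [← Finset.prod_mul_distrib, ← Finset.prod_pow, ← Finset.prod_pow, ← Finset.prod_mul_distrib]
    exact Finset.prod_le_prod (fun v _ => pow_nonneg (apply_nonneg v _) _) fun v _ =>
      place_sub_le σ hp hN hdiv v x
  have hmain := mul_le_mul (pow_le_pow_left₀ (Finset.prod_nonneg fun w _ =>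
    pow_nonneg (apply_nonneg w _) _) hi N) hf (pow_nonneg (Finset.prod_nonneg fun v _ =>
      apply_nonneg v _) _) (by positivity)
  rw [← mul_pow, hpr, one_pow] at hmain
  calc (p : ℝ) ^ D = (p : ℝ) ^ D * 1 := (mul_one _).symm
    _ ≤ _ := mul_le_mul_of_nonneg_left hmain (by positivity)
    _ = ((p : ℝ) ^ D * ∏ v ∈ T, v (p : K)) *
        (2 ^ D * ((∏ w : InfinitePlace K, max (w x) 1 ^ w.mult) * (∏ v ∈ T, max (v x) 1) *
          ((∏ w : InfinitePlace K, max (w (σ x)) 1 ^ w.mult) *
            ∏ v ∈ T, max (v (σ x)) 1))) ^ N := by ring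
    _ = _ := by rw [hpr2, one_mul]

end FA.AbelianNorthcott

end
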