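import Fermat.Agent.AbelianHeight.HeightMap
import Fermat.Agent.AbelianNorthcott.Ramified
import Fermat.Agent.Lehmer.Cyclotomic
import Mathlib.NumberTheory.Padics.Hensel
import Mathlib.NumberTheory.Padics.RingHoms

/-!
# The conductor of an element of small height and bounded exponent

An element of a cyclotomic field fixed by all `N`-th powers of automorphisms whose height is at most
`T` lies in the field of a root of unity whose order divides a number depending only on `N` and `T`.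
-/

set_option autoImplicit false
set_option linter.style.haveILetI false

noncomputable section

namespace FA.AbelianNorthcott

open NumberField Polynomial Module IntermediateField FA.Lehmer

/-- The bound for the primes that matter. -/
def primeLimit (N : ℕ) (T : ℝ) : ℕ := max N ⌈(2 * Real.exp (2 * T)) ^ N⌉₊

/-- The bound for the conductor. -/
def conductor (N : ℕ) (T : ℝ) : ℕ :=
  ∏ p ∈ (Finset.range (primeLimit N T + 1)).filter Nat.Prime, p ^ (2 * N + 1)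

theorem conductor_pos (N : ℕ) (T : ℝ) : 0 < conductor N T :=
  Finset.prod_pos fun _ hp => pow_pos (Finset.mem_filter.1 hp).2.pos _

/-- Residues near `1` are `N`-th powers. -/
theorem exists_pow_modEq {p N : ℕ} (hp : p.Prime) (hN : 0 < N) {b : ℕ}
    (hb : b ≡ 1 [MOD p ^ (2 * N + 1)]) (v : ℕ) : ∃ c : ℕ, c ^ N ≡ b [MOD p ^ v] := by
  haveI : Fact p.Prime := ⟨hp⟩
  have hp1 : (1 : ℝ) < p := by exact_mod_cast hp.one_lt
  obtain ⟨z, hz, -⟩ := hensels_lemma (p := p) (F := (X ^ N - C (b : ℤ_[p]) : ℤ_[p][X]))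
    (a := (1 : ℤ_[p])) (by
      simp only [map_sub, map_pow, aeval_X, one_pow, map_natCast, derivative_X_pow,
        derivative_natCast, sub_zero, map_mul, mul_one]
      have h1 : ‖(1 : ℤ_[p]) - (b : ℤ_[p])‖ ≤ (p : ℝ) ^ (-((2 * N + 1 : ℕ) : ℤ)) := by
        rw [show (1 : ℤ_[p]) - (b : ℤ_[p]) = (((1 : ℤ) - (b : ℤ) : ℤ) : ℤ_[p]) by push_cast; ring,
          PadicInt.norm_int_le_pow_iff_dvd]
        exact_mod_cast Nat.modEq_iff_dvd.1 hb
      have h2 : (p : ℝ) ^ (-(N : ℤ)) < ‖(N : ℤ_[p])‖ := by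
        by_contra hle
        rw [not_lt, ← Int.cast_natCast (R := ℤ_[p]) N, PadicInt.norm_int_le_pow_iff_dvd] at hle
        have h3 : p ^ N ≤ N := Nat.le_of_dvd hN (by exact_mod_cast hle)
        exact absurd h3 (not_le.2 (Nat.lt_pow_self hp.one_lt))
      refine h1.trans_lt (lt_of_le_of_lt ?_ (pow_lt_pow_left₀ h2 (zpow_nonneg (by positivity) _)
        two_ne_zero))
      rw [← zpow_natCast, ← zpow_mul]
      exact zpow_le_zpow_right₀ hp1.le (by push_cast; omega))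
  refine ⟨(PadicInt.toZModPow v z).val, ?_⟩
  rw [← ZMod.natCast_eq_natCast_iff, Nat.cast_pow, ZMod.natCast_zmod_val, ← map_pow]
  have hz' : z ^ N = (b : ℤ_[p]) := by
    simp only [map_sub, map_pow, aeval_X, aeval_C, map_natCast] at hz
    rw [sub_eq_zero] at hz
    exact hz
  rw [hz', map_natCast]

variable {L : Type} [Field L] [NumberField L]

/-- An element fixed by the automorphisms which fix `ξ` lies in the field of `ξ`. -/
theorem mem_adjoin_of_fixed [IsGalois ℚ L] {a ξ : L}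
    (h : ∀ σ : L ≃ₐ[ℚ] L, σ ξ = ξ → σ a = a) : a ∈ ℚ⟮ξ⟯ := by
  rw [← IsGalois.fixedField_fixingSubgroup ℚ⟮ξ⟯]
  exact fun ⟨σ, hσ⟩ => h σ
    ((IntermediateField.mem_fixingSubgroup_iff _ σ).1 hσ _ (mem_adjoin_simple_self ℚ _))

/-- **The bound at a prime dividing the conductor.** -/
theorem ramified_bound {p v m N : ℕ} (hp : p.Prime) (hN : 0 < N) (hpN : N < p)
    [NeZero (p ^ v * m)] [IsCyclotomicExtension {p ^ v * m} ℚ L] {ζ : L}
    (hζ : IsPrimitiveRoot ζ (p ^ v * m)) {a : L} (hfix : ∀ τ : L ≃ₐ[ℚ] L, (τ ^ N) a = a)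
    {σ : L ≃ₐ[ℚ] L} (hσ : σ (ζ ^ p ^ v) = ζ ^ p ^ v) (hne : σ a ≠ a) :
    (finrank ℚ L : ℝ) * (Real.log p - N * Real.log 2) ≤ 2 * N * Height.logHeight₁ a := by
  haveI : IsAbelianGalois ℚ L := IsCyclotomicExtension.isAbelianGalois {p ^ v * m} ℚ L
  haveI : NumberField ℚ⟮a⟯ := {}
  haveI : IsAbelianGalois ℚ ℚ⟮a⟯ := IsAbelianGalois.tower_bot ℚ ℚ⟮a⟯ L
  have hexp : ∀ τ : ℚ⟮a⟯ ≃ₐ[ℚ] ℚ⟮a⟯, τ ^ N = 1 := by
    intro τ
    obtain ⟨T, rfl⟩ := AlgEquiv.restrictNormalHom_surjective L (F := ℚ) (K₁ := ℚ⟮a⟯) τ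
    rw [← map_pow]
    refine AlgEquiv.ext fun y => Subtype.ext ?_
    refine (AlgEquiv.restrictNormal_commutes (T ^ N) ℚ⟮a⟯ y).trans ?_
    have hle : ℚ⟮a⟯ ≤ fixedField (Subgroup.zpowers (T ^ N)) := by
      rw [adjoin_simple_le_iff]
      rintro ⟨g, hg⟩
      obtain ⟨k, rfl⟩ := Subgroup.mem_zpowers_iff.1 hg
      have h1 : T ^ N ∈ MulAction.stabilizer (L ≃ₐ[ℚ] L) a :=
        MulAction.mem_stabilizer_iff.2 (hfix T)
      exact MulAction.mem_stabilizer_iff.1 (zpow_mem h1 k)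
    exact hle y.2 ⟨T ^ N, Subgroup.mem_zpowers _⟩
  have hb := LocalDegrees.boundedAt_of_exponent (L := ℚ⟮a⟯) hp hN hpN hexp
  obtain ⟨s, hs⟩ : ∃ s : ℚ⟮a⟯ ≃ₐ[ℚ] ℚ⟮a⟯, ∀ y, (s y : L) = σ (y : L) :=
    ⟨σ.restrictNormal ℚ⟮a⟯, fun y => AlgEquiv.restrictNormal_commutes σ ℚ⟮a⟯ y⟩
  have hζi := hζ.isIntegral (NeZero.pos (p ^ v * m))
  have hdiv : ∀ (w : FinitePlace ℚ⟮a⟯) (z : 𝓞 ℚ⟮a⟯),
      w (s (z : ℚ⟮a⟯) - z) ^ N ≤ w (p : ℚ⟮a⟯) := by
    intro w z
    have hzL : IsIntegral ℤ ((z : ℚ⟮a⟯) : L) :=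
      z.isIntegral_coe.map ((IntermediateField.val ℚ⟮a⟯).restrictScalars ℤ)
    obtain ⟨G, hG⟩ := exists_aeval_eq hζ hzL
    obtain ⟨A, hA⟩ : ∃ A : 𝓞 L, (A : L) = ζ := ⟨⟨ζ, hζi⟩, rfl⟩
    obtain ⟨A', hA'⟩ : ∃ A' : 𝓞 L, (A' : L) = σ ζ :=
      ⟨⟨σ ζ, hζi.map (σ.toAlgHom.restrictScalars ℤ)⟩, rfl⟩
    obtain ⟨r, hr⟩ := exists_add_pow_prime_pow_eq hp (A' - A) A v
    have hAA : A' ^ p ^ v = A ^ p ^ v := RingOfIntegers.ext (by
      simp only [map_pow, hA, hA', ← map_pow σ, hσ])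
    rw [sub_add_cancel, hAA] at hr
    obtain ⟨c, hc⟩ := sub_dvd_eval_sub A' A (G.map (algebraMap ℤ (𝓞 L)))
    obtain ⟨t, ht⟩ : ∃ t : 𝓞 L, t = -((A' - A) * A * r) * c ^ p ^ v := ⟨_, rfl⟩
    have hw : ((G.map (algebraMap ℤ (𝓞 L))).eval A' - (G.map (algebraMap ℤ (𝓞 L))).eval A) ^ p ^ v
        = (p : 𝓞 L) * t := by
      rw [hc, mul_pow, ht]
      linear_combination (-(c ^ p ^ v)) * hr
    have hev : ∀ B : 𝓞 L, (((G.map (algebraMap ℤ (𝓞 L))).eval B : 𝓞 L) : L) = aeval (B : L) G :=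
      fun B => by
        rw [eval_map, ← aeval_def]
        exact (aeval_algebraMap_apply L B G).symm
    have hwL : (σ ((z : ℚ⟮a⟯) : L) - ((z : ℚ⟮a⟯) : L)) ^ p ^ v = (p : L) * (t : L) := by
      have h := congrArg (fun y : 𝓞 L => (y : L)) hw
      simp only [map_pow, map_sub, map_mul, map_natCast, hev, hA, hA', ← map_aeval_aut, hG] at h
      exact h
    have hpK : (p : ℚ⟮a⟯) ≠ 0 := Nat.cast_ne_zero.2 hp.ne_zero
    obtain ⟨t', ht'⟩ : ∃ t' : ℚ⟮a⟯, t' = (s (z : ℚ⟮a⟯) - z) ^ p ^ v / (p : ℚ⟮a⟯) := ⟨_, rfl⟩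
    have ht'L : (t' : L) = (t : L) := by
      rw [ht']
      show (((s (z : ℚ⟮a⟯) : ℚ⟮a⟯) : L) - ((z : ℚ⟮a⟯) : L)) ^ p ^ v / ((p : ℚ⟮a⟯) : L) = _
      rw [hs, hwL, show ((p : ℚ⟮a⟯) : L) = (p : L) from map_natCast (IntermediateField.val ℚ⟮a⟯) p,
        mul_div_cancel_left₀ _ (Nat.cast_ne_zero.2 hp.ne_zero)]
    have ht'i : IsIntegral ℤ t' :=
      (isIntegral_algebraMap_iff (algebraMap ℚ⟮a⟯ L).injective).1
        ((show algebraMap ℚ⟮a⟯ L t' = (t : L) from ht'L) ▸ t.isIntegral_coe)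
    have hsz : IsIntegral ℤ (s (z : ℚ⟮a⟯) - z) :=
      (z.isIntegral_coe.map (s.toAlgHom.restrictScalars ℤ)).sub z.isIntegral_coe
    refine place_pow_le (N := N) hp hb w (w := ⟨_, hsz⟩) (t := ⟨t', ht'i⟩) (n := p ^ v)
      (RingOfIntegers.ext ?_)
    simp only [map_pow, map_mul, map_natCast]
    show (s (z : ℚ⟮a⟯) - z) ^ p ^ v = (p : ℚ⟮a⟯) * t'
    rw [ht', mul_div_cancel₀ _ hpK]
  set g : ℚ⟮a⟯ := AdjoinSimple.gen ℚ a
  have hsg : s g ≠ g := fun h => hne (by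
    have h' := congrArg (fun y : ℚ⟮a⟯ => (y : L)) h
    simp only [hs] at h'
    exact h')
  have hpp : (0 : ℝ) < p := by exact_mod_cast hp.pos
  have h := Real.log_le_log (by positivity) (pow_le_mulHeight_ramified s hp hN hdiv hsg)
  rw [Real.log_pow, Real.log_pow, Real.log_mul (pow_ne_zero _ two_ne_zero)
      (mul_ne_zero (Height.mulHeight₁_pos _).ne' (Height.mulHeight₁_pos _).ne'),
    Real.log_mul (Height.mulHeight₁_pos _).ne' (Height.mulHeight₁_pos _).ne', Real.log_pow,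
    ← Height.logHeight₁_eq_log_mulHeight₁, ← Height.logHeight₁_eq_log_mulHeight₁,
    AbelianHeight.logHeight_equiv s g] at h
  rw [show a = algebraMap ℚ⟮a⟯ L g from rfl, AbelianHeight.logHeight_map,
    ← finrank_mul_finrank ℚ ℚ⟮a⟯ L, Nat.cast_mul]
  have h2 := mul_le_mul_of_nonneg_left h (Nat.cast_nonneg (α := ℝ) (finrank ℚ⟮a⟯ L))
  linarith

/-- **The reduction of the conductor.** -/
theorem exists_root_bound (N : ℕ) (hN : 0 < N) (T : ℝ) :
    ∀ (M : ℕ) (L : Type) [Field L] [NumberField L] [NeZero M] [IsCyclotomicExtension {M} ℚ L]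
      (a : L), (∀ τ : L ≃ₐ[ℚ] L, (τ ^ N) a = a) →
      Height.logHeight₁ a ≤ (finrank ℚ L : ℝ) * T →
      ∃ ξ : L, ξ ^ conductor N T = 1 ∧ a ∈ ℚ⟮ξ⟯ := by
  intro M
  induction M using Nat.strong_induction_on with
  | _ M ih =>
  intro L _ _ _ _ a hfix hT
  have hζ := IsCyclotomicExtension.zeta_spec M ℚ L
  set ζ := IsCyclotomicExtension.zeta M ℚ L
  by_cases hdvd : M ∣ conductor N T
  · refine ⟨ζ, ?_, ?_⟩
    · obtain ⟨c, hc⟩ := hdvd
      rw [hc, pow_mul, hζ.pow_eq_one, one_pow]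
    · haveI : IsGalois ℚ L := IsCyclotomicExtension.isGalois {M} ℚ L
      refine mem_adjoin_of_fixed fun σ hσ => ?_
      rw [aut_ext hζ (σ := σ) (τ := 1) (by simpa using hσ), AlgEquiv.one_apply]
  haveI : IsAbelianGalois ℚ L := IsCyclotomicExtension.isAbelianGalois {M} ℚ L
  obtain ⟨p, k, hp, hpM, hpC⟩ : ∃ p k : ℕ, p.Prime ∧ p ^ k ∣ M ∧ ¬ p ^ k ∣ conductor N T := by
    by_contra! h
    exact hdvd (Nat.dvd_iff_prime_pow_dvd_dvd (conductor N T) M |>.2 fun p k hp => h p k hp)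
  have hM0 : M ≠ 0 := NeZero.ne M
  obtain ⟨v, m, hm, hMv⟩ := Nat.exists_eq_pow_mul_and_not_dvd hM0 p hp.ne_one
  have hkv : k ≤ v := by
    by_contra hlt
    refine hm ?_
    have h1 : p ^ (v + 1) ∣ p ^ v * m := hMv ▸ (pow_dvd_pow p (by omega : v + 1 ≤ k)).trans hpM
    rwa [pow_succ, Nat.mul_dvd_mul_iff_left (pow_pos hp.pos v)] at h1
  have hk0 : k ≠ 0 := fun h => hpC (by rw [h, pow_zero]; exact one_dvd _)
  obtain ⟨d, hd, hd1, hgood⟩ : ∃ d : ℕ, d ∣ M ∧ 1 < d ∧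
      ∀ σ : L ≃ₐ[ℚ] L, σ (ζ ^ d) = ζ ^ d → σ a = a := by
    rcases le_or_gt p (primeLimit N T) with hpl | hpl
    · have hsmall : 2 * N + 1 < k := by
        by_contra hle
        exact hpC ((pow_dvd_pow p (not_lt.1 hle)).trans (Finset.dvd_prod_of_mem
          (fun q : ℕ => q ^ (2 * N + 1))
          (Finset.mem_filter.2 ⟨Finset.mem_range.2 (Nat.lt_succ_of_le hpl), hp⟩)))
      refine ⟨p ^ (v - (2 * N + 1)), hMv ▸ (pow_dvd_pow p (Nat.sub_le _ _)).trans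
        (dvd_mul_right _ m), Nat.one_lt_pow (by omega) hp.one_lt, fun σ hσ => ?_⟩
      obtain ⟨b, -, hσζ⟩ := hζ.eq_pow_of_pow_eq_one
        (show σ ζ ^ M = 1 by rw [← map_pow, hζ.pow_eq_one, map_one])
      have hsplit : M = p ^ (v - (2 * N + 1)) * (p ^ (2 * N + 1) * m) := by
        rw [← mul_assoc, ← pow_add, Nat.sub_add_cancel (by omega), hMv]
      have hξ : IsPrimitiveRoot (ζ ^ p ^ (v - (2 * N + 1))) (p ^ (2 * N + 1) * m) :=
        hζ.pow (Nat.pos_of_ne_zero hM0) hsplit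
      have hb : b ≡ 1 [MOD p ^ (2 * N + 1) * m] := by
        refine modEq_of_root_pow_eq hξ (Nat.pos_of_ne_zero fun h => hM0 (by rw [hsplit, h, mul_zero]))
          ?_
        rw [pow_one, ← pow_mul, mul_comm, pow_mul, hσζ, ← map_pow, hσ]
      obtain ⟨c₀, hc₀⟩ := exists_pow_modEq hp hN (Nat.ModEq.of_mul_right m hb) v
      have hco : Nat.Coprime (p ^ v) m := Nat.Coprime.pow_left v (hp.coprime_iff_not_dvd.2 hm)
      obtain ⟨c, hcp, hcm⟩ := Nat.chineseRemainder hco c₀ 1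
      have hcN : c ^ N ≡ b [MOD M] := by
        rw [hMv]
        refine (Nat.modEq_and_modEq_iff_modEq_mul hco).1 ⟨(hcp.pow N).trans hc₀, ?_⟩
        have h1 := hcm.pow N
        rw [one_pow] at h1
        exact h1.trans (Nat.ModEq.of_mul_left _ hb).symm
      have hbco : b.Coprime M := (hζ.pow_iff_coprime (Nat.pos_of_ne_zero hM0) b).1
        (hσζ ▸ hζ.map_of_injective σ.injective)
      have hcco : c.Coprime M := by
        have h : (c ^ N).Coprime M := by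
          rw [Nat.Coprime, hcN.gcd_eq]
          exact hbco
        exact (Nat.coprime_pow_left_iff hN c M).1 h
      obtain ⟨τ, hτ⟩ := exists_aut hζ hcco
      have hτn : ∀ n : ℕ, (τ ^ n) ζ = ζ ^ (c ^ n) := by
        intro n
        induction n with
        | zero => simp
        | succ n ihn =>
          rw [pow_succ' τ, AlgEquiv.mul_apply, ihn, map_pow, hτ, ← pow_mul, ← pow_succ' c]
      rw [aut_ext hζ (σ := σ) (τ := τ ^ N) (by rw [← hσζ, hτn]; exact root_pow_congr hζ hcN.symm)]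
      exact hfix τ
    · refine ⟨p ^ v, hMv ▸ dvd_mul_right _ m, Nat.one_lt_pow (by omega) hp.one_lt, fun σ hσ => ?_⟩
      by_contra hne
      subst hMv
      have h := ramified_bound hp hN ((le_max_left _ _).trans_lt hpl) hζ hfix hσ hne
      have hexp : (2 * Real.exp (2 * T)) ^ N < p :=
        (Nat.le_ceil _).trans_lt (by exact_mod_cast (le_max_right _ _).trans_lt hpl)
      have hlog := Real.log_lt_log (by positivity) hexp
      rw [Real.log_pow, Real.log_mul two_ne_zero (Real.exp_pos _).ne', Real.log_exp] at hlog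
      have hD : (0 : ℝ) < finrank ℚ L := Nat.cast_pos.2 finrank_pos
      have h3 := mul_le_mul_of_nonneg_left hT (by positivity : (0 : ℝ) ≤ 2 * N)
      nlinarith [mul_lt_mul_of_pos_left hlog hD]
  obtain ⟨M', hM'⟩ := hd
  have hM'0 : M' ≠ 0 := fun h => hM0 (by rw [hM', h, mul_zero])
  haveI : NeZero M' := ⟨hM'0⟩
  have hξ : IsPrimitiveRoot (ζ ^ d) M' := hζ.pow (Nat.pos_of_ne_zero hM0) hM'
  have hmem : a ∈ ℚ⟮ζ ^ d⟯ := mem_adjoin_of_fixed hgood
  set F := ℚ⟮ζ ^ d⟯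
  haveI : IsCyclotomicExtension {M'} ℚ F := hξ.intermediateField_adjoin_isCyclotomicExtension ℚ
  haveI : IsGalois ℚ F := IsCyclotomicExtension.isGalois {M'} ℚ F
  obtain ⟨γ, hγ⟩ : ∃ γ : F, algebraMap F L γ = a := ⟨⟨a, hmem⟩, rfl⟩
  have hfix' : ∀ τ : F ≃ₐ[ℚ] F, (τ ^ N) γ = γ := by
    intro τ
    obtain ⟨T', rfl⟩ := AlgEquiv.restrictNormalHom_surjective L (F := ℚ) (K₁ := F) τ
    rw [← map_pow]
    refine (algebraMap F L).injective ?_
    refine (AlgEquiv.restrictNormal_commutes (T' ^ N) F γ).trans ?_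
    rw [hγ]
    exact hfix T'
  have hT' : Height.logHeight₁ γ ≤ (finrank ℚ F : ℝ) * T := by
    refine le_of_mul_le_mul_left ?_
      (show (0 : ℝ) < finrank F L from Nat.cast_pos.2 finrank_pos)
    rw [← AbelianHeight.logHeight_map, hγ, ← mul_assoc, mul_comm ((finrank F L : ℕ) : ℝ),
      ← Nat.cast_mul, finrank_mul_finrank]
    exact hT
  have hlt : M' < M := by
    rw [hM']
    exact lt_mul_of_one_lt_left (Nat.pos_of_ne_zero hM'0) hd1
  obtain ⟨η, hη, hγη⟩ := ih M' hlt F γ hfix' hT'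
  refine ⟨(η : L), ?_, ?_⟩
  · rw [← SubmonoidClass.coe_pow, hη]
    rfl
  · rw [← hγ]
    clear hγ hfix' hT'
    show ((γ : F) : L) ∈ ℚ⟮(η : L)⟯
    induction hγη using IntermediateField.adjoin_induction with
    | mem z hz =>
      rw [Set.mem_singleton_iff] at hz
      subst hz
      exact mem_adjoin_simple_self ℚ _
    | algebraMap q =>
      rw [eq_ratCast]
      exact SubfieldClass.ratCast_mem _ q
    | add u v _ _ hu hv => exact add_mem hu hv
    | inv u _ hu => exact inv_mem hu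
    | mul u v _ _ hu hv => exact mul_mem hu hv

end FA.AbelianNorthcott

end
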