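import Fermat.Agent.AbelianHeight.Abelian
import Fermat.Agent.AbelianNorthcott.Cyclotomic
import Fermat.Agent.LocalDegrees.Main
import Fermat.Agent.QuadraticNorthcott.Fields

/-!
# The Northcott property in abelian extensions of bounded exponent

The elements of abelian number fields of bounded exponent, and of the compositum of the abelian
fields of bounded degree, whose height is at most `T` lie in one number field, so are finite in
number.  The fields generated by square roots show that the degree is unbounded here.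
-/

set_option autoImplicit false
set_option linter.style.haveILetI false

noncomputable section

namespace FA.AbelianNorthcott

open NumberField Polynomial Module IntermediateField FA.Lehmer

/-- The number field which carries all small points of exponent `N`. -/
def carrier (N : ℕ) (T : ℝ) : IntermediateField ℚ ℂ :=
  adjoin ℚ {z : ℂ | z ^ conductor N T = 1}

instance (N : ℕ) (T : ℝ) : FiniteDimensional ℚ (carrier N T) := by
  have hfin : {z : ℂ | z ^ conductor N T = 1}.Finite := by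
    refine Set.Finite.subset (((X : ℂ[X]) ^ conductor N T - C 1).roots.toFinset).finite_toSet
      fun z hz => ?_
    rw [Finset.mem_coe, Multiset.mem_toFinset, mem_roots (X_pow_sub_C_ne_zero (conductor_pos N T) _)]
    simpa [sub_eq_zero] using hz
  haveI := hfin.to_subtype
  exact finiteDimensional_adjoin fun z hz =>
    IsIntegral.of_pow (conductor_pos N T) (hz ▸ isIntegral_one)

/-- A small point fixed by all `N`-th powers lies in the carrier. -/
theorem apply_mem_carrier {N : ℕ} (hN : 0 < N) {T : ℝ} {M : ℕ} {L : Type} [Field L] [NumberField L]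
    [NeZero M] [IsCyclotomicExtension {M} ℚ L] (g : L →ₐ[ℚ] ℂ) (a : L)
    (hfix : ∀ τ : L ≃ₐ[ℚ] L, (τ ^ N) a = a) (hT : BiluTorus.algHeight (g a) ≤ T) :
    g a ∈ carrier N T := by
  have hh : Height.logHeight₁ a ≤ (finrank ℚ L : ℝ) * T := by
    rw [AbelianHeight.logHeight_eq_algHeight g a]
    exact mul_le_mul_of_nonneg_left hT (Nat.cast_nonneg _)
  obtain ⟨ξ, hξ, ha⟩ := exists_root_bound N hN T M L a hfix hh
  clear hh hT hfix
  induction ha using IntermediateField.adjoin_induction with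
  | mem z hz =>
    rw [Set.mem_singleton_iff] at hz
    subst hz
    exact subset_adjoin ℚ _ (show g z ^ conductor N T = 1 by rw [← map_pow, hξ, map_one])
  | algebraMap q => rw [AlgHom.commutes]; exact IntermediateField.algebraMap_mem _ q
  | add u v _ _ hu hv => rw [map_add]; exact add_mem hu hv
  | inv u _ hu => rw [map_inv₀]; exact inv_mem hu
  | mul u v _ _ hu hv => rw [map_mul]; exact mul_mem hu hv

/-- An element of an abelian field of exponent `N` and small height lies in the carrier. -/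
theorem mem_carrier {N : ℕ} (hN : 0 < N) {T : ℝ} (K : IntermediateField ℚ ℂ)
    [FiniteDimensional ℚ K] [IsAbelianGalois ℚ K] (hexp : ∀ σ : K ≃ₐ[ℚ] K, σ ^ N = 1) {x : ℂ}
    (hx : x ∈ K) (hT : BiluTorus.algHeight x ≤ T) : x ∈ carrier N T := by
  haveI : NumberField K := {}
  obtain ⟨M, hM, ⟨f⟩⟩ := FA.Summary.kroneckerWeber_cyclotomicField K
  haveI : NeZero M := ⟨hM.ne'⟩
  haveI : NeZero (M : ℚ) := ⟨Nat.cast_ne_zero.2 hM.ne'⟩
  haveI : IsCyclotomicExtension {M} ℚ (CyclotomicField M ℚ) :=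
    CyclotomicField.isCyclotomicExtension M ℚ
  haveI : NumberField (CyclotomicField M ℚ) := IsCyclotomicExtension.numberField {M} ℚ _
  haveI : IsGalois ℚ (CyclotomicField M ℚ) := IsCyclotomicExtension.isGalois {M} ℚ _
  letI : Algebra K (CyclotomicField M ℚ) := f.toRingHom.toAlgebra
  haveI : FiniteDimensional K (CyclotomicField M ℚ) :=
    Module.Finite.of_restrictScalars_finite ℚ K _
  let g : CyclotomicField M ℚ →ₐ[K] ℂ := IsAlgClosed.lift
  have hg : g.toRingHom.toRatAlgHom (algebraMap K (CyclotomicField M ℚ) ⟨x, hx⟩) = x :=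
    g.commutes ⟨x, hx⟩
  rw [← hg] at hT ⊢
  refine apply_mem_carrier (M := M) hN g.toRingHom.toRatAlgHom _ (fun τ => ?_) hT
  rw [← AlgEquiv.restrictNormal_commutes (τ ^ N) K ⟨x, hx⟩]
  change algebraMap K (CyclotomicField M ℚ) ((AlgEquiv.restrictNormalHom K (τ ^ N)) ⟨x, hx⟩) = _
  rw [map_pow, hexp, AlgEquiv.one_apply]

/-- The compositum of the abelian number fields of degree at most `d`. -/
def abelianDegreeCompositum (d : ℕ) : IntermediateField ℚ ℂ :=
  adjoin ℚ {z : ℂ | ∃ (K : IntermediateField ℚ ℂ) (_ : FiniteDimensional ℚ K),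
    IsAbelianGalois ℚ K ∧ finrank ℚ K ≤ d ∧ z ∈ K}

/-- Roots of unity of order dividing the conductor are in the image. -/
theorem mem_range_of_root {M : ℕ} {L : Type} [Field L] [NumberField L] [NeZero M]
    [IsCyclotomicExtension {M} ℚ L] (g : L →ₐ[ℚ] ℂ) {x : ℂ}
    (hx : x ∈ adjoin ℚ {z : ℂ | z ^ M = 1}) : ∃ a : L, g a = x := by
  have hgζ := (IsCyclotomicExtension.zeta_spec M ℚ L).map_of_injective g.injective
  induction hx using IntermediateField.adjoin_induction with
  | mem z hz =>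
    obtain ⟨i, -, rfl⟩ := hgζ.eq_pow_of_pow_eq_one hz
    exact ⟨IsCyclotomicExtension.zeta M ℚ L ^ i, map_pow g _ _⟩
  | algebraMap q => exact ⟨algebraMap ℚ L q, g.commutes q⟩
  | add u v _ _ hu hv =>
    obtain ⟨a, rfl⟩ := hu
    obtain ⟨b, rfl⟩ := hv
    exact ⟨a + b, map_add g a b⟩
  | inv u _ hu =>
    obtain ⟨a, rfl⟩ := hu
    exact ⟨a⁻¹, map_inv₀ g a⟩
  | mul u v _ _ hu hv =>
    obtain ⟨a, rfl⟩ := hu
    obtain ⟨b, rfl⟩ := hv
    exact ⟨a * b, map_mul g a b⟩

/-- Every element of the compositum is fixed by the `d !`-th powers in large cyclotomic fields. -/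
theorem exists_level {d : ℕ} {x : ℂ} (hx : x ∈ abelianDegreeCompositum d) :
    ∃ M₀ : ℕ, 0 < M₀ ∧ ∀ (M : ℕ) (L : Type) [Field L] [NumberField L] [NeZero M]
      [IsCyclotomicExtension {M} ℚ L] (g : L →ₐ[ℚ] ℂ), M₀ ∣ M →
      ∃ a : L, g a = x ∧ ∀ τ : L ≃ₐ[ℚ] L, (τ ^ d.factorial) a = a := by
  induction hx using IntermediateField.adjoin_induction with
  | mem z hz =>
    obtain ⟨K, hfd, hab, hdeg, hzK⟩ := hz
    haveI := hfd
    haveI := hab
    haveI : NumberField K := {}
    obtain ⟨M₀, hM₀, ⟨f⟩⟩ := FA.Summary.kroneckerWeber_cyclotomicField K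
    haveI : NeZero M₀ := ⟨hM₀.ne'⟩
    haveI : NeZero (M₀ : ℚ) := ⟨Nat.cast_ne_zero.2 hM₀.ne'⟩
    haveI : IsCyclotomicExtension {M₀} ℚ (CyclotomicField M₀ ℚ) :=
      CyclotomicField.isCyclotomicExtension M₀ ℚ
    haveI : NumberField (CyclotomicField M₀ ℚ) := IsCyclotomicExtension.numberField {M₀} ℚ _
    letI : Algebra K (CyclotomicField M₀ ℚ) := f.toRingHom.toAlgebra
    haveI : FiniteDimensional K (CyclotomicField M₀ ℚ) :=
      Module.Finite.of_restrictScalars_finite ℚ K _
    let g₀ : CyclotomicField M₀ ℚ →ₐ[K] ℂ := IsAlgClosed.lift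
    have hgζ := (IsCyclotomicExtension.zeta_spec M₀ ℚ (CyclotomicField M₀ ℚ)).map_of_injective
      g₀.injective
    have hz₀ : z ∈ adjoin ℚ {w : ℂ | w ^ M₀ = 1} := by
      obtain ⟨y, rfl⟩ : ∃ y, g₀ y = z := ⟨algebraMap K _ ⟨z, hzK⟩, g₀.commutes ⟨z, hzK⟩⟩
      obtain ⟨G, rfl⟩ : ∃ G : ℚ[X], aeval (IsCyclotomicExtension.zeta M₀ ℚ (CyclotomicField M₀ ℚ))
          G = y := by
        have h : y ∈ Algebra.adjoin ℚ
            ({IsCyclotomicExtension.zeta M₀ ℚ (CyclotomicField M₀ ℚ)} : Set _) := by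
          rw [IsCyclotomicExtension.adjoin_primitive_root_eq_top
            (IsCyclotomicExtension.zeta_spec M₀ ℚ (CyclotomicField M₀ ℚ))]
          exact Algebra.mem_top
        rwa [Algebra.adjoin_singleton_eq_range_aeval] at h
      rw [show g₀ (aeval (IsCyclotomicExtension.zeta M₀ ℚ (CyclotomicField M₀ ℚ)) G) =
        aeval (g₀.toRingHom.toRatAlgHom (IsCyclotomicExtension.zeta M₀ ℚ (CyclotomicField M₀ ℚ))) G
        from (aeval_algHom_apply g₀.toRingHom.toRatAlgHom _ G).symm]
      refine (IntermediateField.algebra_adjoin_le_adjoin ℚ _)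
        (Algebra.adjoin_mono (Set.singleton_subset_iff.2 ?_)
          (aeval_mem_adjoin_singleton ℚ _))
      exact hgζ.pow_eq_one
    refine ⟨M₀, hM₀, fun M L _ _ _ _ g hdvd => ?_⟩
    obtain ⟨a, ha⟩ := mem_range_of_root g (AbelianHeight.adjoin_roots_mono hdvd hz₀)
    refine ⟨a, ha, fun τ => ?_⟩
    have hzi : IsIntegral ℚ z := (IsIntegral.of_finite ℚ (⟨z, hzK⟩ : K)).map K.val
    refine LocalDegrees.pow_factorial_apply τ (f := minpoly ℚ z) (minpoly.ne_zero hzi) ?_
      ((map_eq_zero_iff g g.injective).1 (by rw [← aeval_algHom_apply, ha, minpoly.aeval]))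
    refine le_trans ?_ hdeg
    rw [show minpoly ℚ z = minpoly ℚ (⟨z, hzK⟩ : K) from
      minpoly.algHom_eq K.val K.val.injective (⟨z, hzK⟩ : K)]
    exact minpoly.natDegree_le _
  | algebraMap q =>
    exact ⟨1, one_pos, fun M L _ _ _ _ g _ => ⟨algebraMap ℚ L q, g.commutes q, fun τ =>
      AlgEquiv.commutes _ q⟩⟩
  | add u v _ _ hu hv =>
    obtain ⟨A, hA, hu⟩ := hu
    obtain ⟨B, hB, hv⟩ := hv
    refine ⟨A * B, Nat.mul_pos hA hB, fun M L _ _ _ _ g hdvd => ?_⟩
    obtain ⟨a, rfl, ha⟩ := hu M L g ((dvd_mul_right A B).trans hdvd)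
    obtain ⟨b, rfl, hb⟩ := hv M L g ((dvd_mul_left B A).trans hdvd)
    exact ⟨a + b, map_add g a b, fun τ => by rw [map_add, ha τ, hb τ]⟩
  | inv u _ hu =>
    obtain ⟨A, hA, hu⟩ := hu
    refine ⟨A, hA, fun M L _ _ _ _ g hdvd => ?_⟩
    obtain ⟨a, rfl, ha⟩ := hu M L g hdvd
    exact ⟨a⁻¹, map_inv₀ g a, fun τ => by rw [map_inv₀, ha τ]⟩
  | mul u v _ _ hu hv =>
    obtain ⟨A, hA, hu⟩ := hu
    obtain ⟨B, hB, hv⟩ := hv
    refine ⟨A * B, Nat.mul_pos hA hB, fun M L _ _ _ _ g hdvd => ?_⟩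
    obtain ⟨a, rfl, ha⟩ := hu M L g ((dvd_mul_right A B).trans hdvd)
    obtain ⟨b, rfl, hb⟩ := hv M L g ((dvd_mul_left B A).trans hdvd)
    exact ⟨a * b, map_mul g a b, fun τ => by rw [map_mul, ha τ, hb τ]⟩

theorem mem_carrier_of_compositum {d : ℕ} {T : ℝ} {x : ℂ} (hx : x ∈ abelianDegreeCompositum d)
    (hT : BiluTorus.algHeight x ≤ T) : x ∈ carrier d.factorial T := by
  obtain ⟨M, hM, h⟩ := exists_level hx
  haveI : NeZero M := ⟨hM.ne'⟩
  haveI : NeZero (M : ℚ) := ⟨Nat.cast_ne_zero.2 hM.ne'⟩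
  haveI : IsCyclotomicExtension {M} ℚ (CyclotomicField M ℚ) :=
    CyclotomicField.isCyclotomicExtension M ℚ
  haveI : NumberField (CyclotomicField M ℚ) := IsCyclotomicExtension.numberField {M} ℚ _
  obtain ⟨a, rfl, ha⟩ := h M (CyclotomicField M ℚ) IsAlgClosed.lift dvd_rfl
  exact apply_mem_carrier (M := M) (Nat.factorial_pos d) _ a ha hT

/-- Bounded height inside one number field. -/
theorem finite_carrier (N : ℕ) (T : ℝ) :
    {x : ℂ | x ∈ carrier N T ∧ BiluTorus.algHeight x ≤ T}.Finite := by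
  haveI : NumberField (carrier N T) := {}
  refine ((Northcott.finite_le (h := (Height.logHeight₁ : carrier N T → ℝ))
    ((finrank ℚ (carrier N T) : ℝ) * T)).image (fun a : carrier N T => (a : ℂ))).subset ?_
  rintro x ⟨hx, hT⟩
  refine ⟨⟨x, hx⟩, ?_, rfl⟩
  refine (AbelianHeight.logHeight_eq_algHeight (IntermediateField.val (carrier N T)) ⟨x, hx⟩).le.trans ?_
  exact mul_le_mul_of_nonneg_left hT (Nat.cast_nonneg _)

/-- The fields of square roots have exponent two and unbounded degree. -/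
theorem exists_large_exponent_two (n : ℕ) : ∃ (K : IntermediateField ℚ ℂ)
    (_ : FiniteDimensional ℚ K), IsAbelianGalois ℚ K ∧ (∀ σ : K ≃ₐ[ℚ] K, σ ^ 2 = 1) ∧
      n ≤ finrank ℚ K := by
  classical
  suffices h : ∃ S : Finset ℤ, n ≤ finrank ℚ (QuadraticNorthcott.sqrtField S) ∧ (0 : ℤ) ∉ S by
    obtain ⟨S, hn, -⟩ := h
    have hsq : ∀ σ : QuadraticNorthcott.sqrtField S ≃ₐ[ℚ] QuadraticNorthcott.sqrtField S,
        σ ^ 2 = 1 := by
      intro σ
      have h : (σ ^ 2).toAlgHom = AlgHom.id ℚ _ := by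
        refine IntermediateField.adjoin_algHom_ext ℚ fun z hz => ?_
        obtain ⟨b, hb, hzb⟩ := hz
        set y : QuadraticNorthcott.sqrtField S := ⟨z, IntermediateField.subset_adjoin ℚ _ ⟨b, hb, hzb⟩⟩
        have hy : y ^ 2 = (b : QuadraticNorthcott.sqrtField S) := Subtype.ext (by
          rw [SubmonoidClass.coe_pow]
          exact hzb.trans (map_intCast (IntermediateField.val (QuadraticNorthcott.sqrtField S)) b).symm)
        have h2 : σ y ^ 2 = y ^ 2 := by rw [← map_pow, hy, map_intCast]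
        show (σ ^ 2) y = y
        rw [pow_two σ, AlgEquiv.mul_apply]
        rcases sq_eq_sq_iff_eq_or_eq_neg.1 h2 with e | e
        · rw [e, e]
        · rw [e, map_neg, e, neg_neg]
      exact AlgEquiv.ext fun y => DFunLike.congr_fun h y
    refine ⟨_, inferInstance, ?_, hsq, hn⟩
    exact
      { (inferInstance : IsGalois ℚ (QuadraticNorthcott.sqrtField S)) with
        is_comm := ⟨fun a b => by
          have hinv : ∀ c : QuadraticNorthcott.sqrtField S ≃ₐ[ℚ] QuadraticNorthcott.sqrtField S,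
              c⁻¹ = c := fun c => inv_eq_of_mul_eq_one_right (by rw [← pow_two, hsq c])
          rw [← hinv (a * b), mul_inv_rev, hinv, hinv]⟩ }
  induction n with
  | zero => exact ⟨∅, Nat.zero_le _, by simp⟩
  | succ n ih =>
    obtain ⟨S, hn, hS0⟩ := ih
    obtain ⟨p, hpS, hp⟩ := Nat.exists_infinite_primes (S.sup Int.natAbs + 3)
    refine ⟨insert (p : ℤ) S, ?_, by
      simp only [Finset.mem_insert, hS0, or_false]
      exact_mod_cast hp.ne_zero.symm⟩
    have hdiv : ∀ b ∈ S, ¬ (p : ℤ) ∣ b := fun b hb h => by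
      have h1 := Nat.le_of_dvd (Int.natAbs_pos.2 fun e => hS0 (e ▸ hb)) (Int.natCast_dvd.1 h)
      have h2 : b.natAbs ≤ S.sup Int.natAbs := Finset.le_sup (f := Int.natAbs) hb
      omega
    obtain ⟨r, hr⟩ := IsAlgClosed.exists_pow_nat_eq ((p : ℤ) : ℂ) two_pos
    have hp0 : (p : ℂ) ≠ 0 := Nat.cast_ne_zero.2 hp.ne_zero
    have hr' : r ^ 2 = (p : ℂ) := by rw [hr, Int.cast_natCast]
    have hrS : r ∉ QuadraticNorthcott.sqrtField S := fun hmem => by
      obtain ⟨m, hm, hmi⟩ := QuadraticNorthcott.exists_mul_isIntegral hp (by omega) S hdiv (r / p)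
        (div_mem hmem (_root_.natCast_mem _ p)) (by
          rw [show (p : ℂ) * (r / p) ^ 2 = 1 by field_simp; linear_combination hr']
          exact isIntegral_one)
      have hq : IsIntegral ℤ ((m : ℚ) ^ 2 / p) :=
        (isIntegral_algebraMap_iff (B := ℂ) (algebraMap ℚ ℂ).injective).1 (by
          have h := hmi.pow 2
          have e : ((m : ℂ) * (r / p)) ^ 2 = algebraMap ℚ ℂ ((m : ℚ) ^ 2 / p) := by
            rw [map_div₀, map_pow, map_intCast, map_natCast]
            field_simp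
            linear_combination (m : ℂ) ^ 2 * hr'
          rwa [e] at h)
      obtain ⟨k, hk⟩ := IsIntegrallyClosed.isIntegral_iff.1 hq
      have hk2 : (m : ℚ) ^ 2 = k * p := by
        have h : (k : ℚ) = (m : ℚ) ^ 2 / p := by simpa using hk
        rw [h, div_mul_cancel₀ _ (Nat.cast_ne_zero.2 hp.ne_zero)]
      exact hm ((Nat.prime_iff_prime_int.1 hp).dvd_of_dvd_pow (n := 2)
        ⟨k, by rw [mul_comm]; exact_mod_cast hk2⟩)
    have hlt : QuadraticNorthcott.sqrtField S < QuadraticNorthcott.sqrtField (insert (p : ℤ) S) :=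
      SetLike.lt_iff_le_and_exists.2 ⟨QuadraticNorthcott.sqrtField_mono (Finset.subset_insert _ _),
        r, QuadraticNorthcott.mem_sqrtField (Finset.mem_insert_self _ _) hr, hrS⟩
    have h1 : finrank ℚ (QuadraticNorthcott.sqrtField S).toSubalgebra.toSubmodule <
        finrank ℚ (QuadraticNorthcott.sqrtField (insert (p : ℤ) S)).toSubalgebra.toSubmodule := by
      haveI : Module.Finite ℚ
          (QuadraticNorthcott.sqrtField (insert (p : ℤ) S)).toSubalgebra.toSubmodule :=
        (inferInstance : FiniteDimensional ℚ (QuadraticNorthcott.sqrtField (insert (p : ℤ) S)))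
      exact Submodule.finrank_lt_finrank_of_lt hlt
    exact Nat.succ_le_of_lt (hn.trans_lt h1)

end FA.AbelianNorthcott

end
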